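import Fermat.Agent.Lib.CFT.Tower.Coh

/-!
# P4: directedness of the towers and the contract between layers D and E

`PoitouTateStatement p S M` is what layer D (duality) has to prove and what layer E (bridge to the
Prelude definitions) consumes to prove S55.
-/

set_option autoImplicit false

open groupCohomology ExtCitation CategoryTheory

namespace Fermat.Agent.CFT

noncomputable section

variable {k : Type} [CommRing k] (M : Rep k GQ)

instance (S : Finset Nat.Primes) (n : ℕ) :
    DirectedSystem (globSys M S n) (fun L L' h => globSysMap M S n L L' h) where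
  map_self L x := by
    change infl M n (le_refl L.1) L.2.2 L.2.2 x = x
    rw [infl_refl]; rfl
  map_map L'' L' L h h' x := by
    change infl M n h' L'.2.2 L''.2.2 (infl M n h L.2.2 L'.2.2 x) = infl M n (h.trans h') L.2.2 L''.2.2 x
    rw [← infl_comp M n h h' L.2.2 L'.2.2 L''.2.2]; rfl

lemma Level.IsS.sup {S : Finset Nat.Primes} {L L' : Level} (h : L.IsS S) (h' : L'.IsS S) :
    (L ⊔ L').IsS S :=
  IntermediateField.IsUnramifiedOutside.sup h h'

instance (S : Finset Nat.Primes) : IsDirected (LevelS M S) (· ≤ ·) where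
  directed L L' :=
    ⟨⟨L.1 ⊔ L'.1, L.2.1.sup L'.2.1, L.2.2.mono le_sup_left⟩, le_sup_left (a := L.1), le_sup_right (a := L.1)⟩

instance : IsDirected (LevelA M) (· ≤ ·) where
  directed L L' := ⟨⟨L.1 ⊔ L'.1, L.2.mono le_sup_left⟩, le_sup_left (a := L.1), le_sup_right (a := L.1)⟩

/-- **Contract D → E** (Poitou–Tate in cardinality form): `Ш²_S(M)` is finite and has the same
cardinality as `Ш¹_S(M^*(1))`, for the internal (finite-level) Tate–Shafarevich groups. -/
def PoitouTateStatement (p : ℕ) [Fact p.Prime] (S : Finset Nat.Primes) (M : Rep (ZMod p) GQ) : Prop :=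
  Finite (ShaInt M S 2) ∧ Finite (ShaInt (M.dualTwist (cycloChar p)) S 1) ∧
    Nat.card (ShaInt (M.dualTwist (cycloChar p)) S 1) = Nat.card (ShaInt M S 2)

end

end Fermat.Agent.CFT
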