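import Mathlib
import Fermat.Prelude.Def_GroupCohomology_ContinuousUnramified

/-!
# P4 (class field theory): the tower of finite Galois levels of `ℚ̄ / ℚ`

Common language for layers C, D and E of project P4.

* `Level` : finite Galois subextensions `F` of `ℚ̄ / ℚ` (Mathlib's `FiniteGaloisIntermediateField`);
  `L.N = Gal(ℚ̄ / F)`, `L.G = G_ℚ ⧸ L.N ≃ Gal(F / ℚ)`, `Level.map : L'.G →* L.G` for `L ≤ L'`.
* `atLevel M L h` : a `G_ℚ`-representation on which `L.N` acts trivially, as a representation of `L.G`.
* `decomp q L` : the decomposition group at `q` inside `L.G` (image of the Prelude local Galois group).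
* `HS S M n`, `Hloc q M n` : direct limits over levels of the cohomology of the finite groups;
  `Sha1Int`, `Sha2Int` : the internal Tate--Shafarevich groups.
-/

set_option autoImplicit false

open groupCohomology ExtCitation CategoryTheory

namespace Fermat.Agent.CFT

noncomputable section

/-- `ℚ̄`. -/
abbrev Qbar : Type := AlgebraicClosure ℚ

/-- `G_ℚ`. -/
abbrev GQ : Type := Qbar ≃ₐ[ℚ] Qbar

scoped instance isAlgebraicQbar : Algebra.IsAlgebraic ℚ Qbar := AlgebraicClosure.isAlgebraic ℚ
scoped instance isAlgClosureQbar : IsAlgClosure ℚ Qbar := ⟨inferInstance, inferInstance⟩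
scoped instance normalQbar : Normal ℚ Qbar := IsAlgClosure.normal ℚ Qbar
scoped instance isGaloisQbar : IsGalois ℚ Qbar := ⟨⟩

/-- A level: a finite Galois subextension of `ℚ̄ / ℚ`. -/
abbrev Level : Type := FiniteGaloisIntermediateField ℚ Qbar

namespace Level

/-- `Gal(ℚ̄ / F)`. -/
def N (L : Level) : Subgroup GQ := L.toIntermediateField.fixingSubgroup

instance (L : Level) : L.N.Normal := by
  unfold N; infer_instance

/-- `Gal(F / ℚ)` as a quotient of `G_ℚ`. -/
abbrev G (L : Level) : Type := GQ ⧸ L.N

/-- The projection `G_ℚ → Gal(F / ℚ)`. -/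
def proj (L : Level) : GQ →* L.G := QuotientGroup.mk' L.N

lemma proj_surjective (L : Level) : Function.Surjective L.proj := QuotientGroup.mk'_surjective _

lemma N_anti {L L' : Level} (h : L ≤ L') : L'.N ≤ L.N :=
  IntermediateField.fixingSubgroup_antitone h

/-- The restriction `Gal(F' / ℚ) → Gal(F / ℚ)` for `F ≤ F'`. -/
def map {L L' : Level} (h : L ≤ L') : L'.G →* L.G :=
  QuotientGroup.map L'.N L.N (MonoidHom.id GQ) (N_anti h)

@[simp] lemma map_proj {L L' : Level} (h : L ≤ L') (g : GQ) : map h (L'.proj g) = L.proj g := rfl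

lemma map_surjective {L L' : Level} (h : L ≤ L') : Function.Surjective (map h) := by
  intro x
  obtain ⟨g, rfl⟩ := L.proj_surjective x
  exact ⟨L'.proj g, rfl⟩

lemma map_comp {L L' L'' : Level} (h : L ≤ L') (h' : L' ≤ L'') :
    (map h).comp (map h') = map (h.trans h') := by
  ext g
  rfl

lemma map_refl (L : Level) : map (le_refl L) = MonoidHom.id L.G := by
  ext g
  rfl

/-- `F / ℚ` is unramified outside `S` (Prelude notion). -/
def IsS (S : Finset Nat.Primes) (L : Level) : Prop := L.toIntermediateField.IsUnramifiedOutside S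

end Level

section Modules

variable {k : Type} [CommRing k] (M : Rep k GQ)

/-- `Gal(ℚ̄ / F)` acts trivially on `M`. -/
def TrivialOn (L : Level) : Prop := ∀ s ∈ L.N, M.ρ s = 1

variable {M} in
lemma TrivialOn.mono {L L' : Level} (h : L ≤ L') (hM : TrivialOn M L) : TrivialOn M L' :=
  fun s hs => hM s (Level.N_anti h hs)

/-- `M` as a representation of `Gal(F / ℚ)`. -/
def atLevel (L : Level) (h : TrivialOn M L) : Rep k L.G :=
  Rep.of (QuotientGroup.lift L.N M.ρ (fun s hs => h s hs))

@[simp] lemma atLevel_ρ_proj (L : Level) (h : TrivialOn M L) (g : GQ) :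
    (atLevel M L h).ρ (L.proj g) = M.ρ g := rfl

end Modules

end

end Fermat.Agent.CFT
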