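import Fermat.Agent.Lib.CFT.Tower.Defs

/-!
# P4: cohomology of the tower, local towers, internal Tate--Shafarevich groups
-/

set_option autoImplicit false

open groupCohomology ExtCitation CategoryTheory

namespace Fermat.Agent.CFT

noncomputable section

variable {k : Type} [CommRing k] (M : Rep k GQ)

/-- The identity of `M`, as a morphism `Res (atLevel M L) ⟶ atLevel M L'` for `L ≤ L'`. -/
def inflHom {L L' : Level} (h : L ≤ L') (hL : TrivialOn M L) (hL' : TrivialOn M L') :
    Rep.res (Level.map h) (atLevel M L hL) ⟶ atLevel M L' hL' :=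
  Rep.ofHom ⟨LinearMap.id, fun g => by
    obtain ⟨g, rfl⟩ := L'.proj_surjective g
    rfl⟩

/-- Inflation `H^n(Gal(F/ℚ), M) → H^n(Gal(F'/ℚ), M)`. -/
def infl (n : ℕ) {L L' : Level} (h : L ≤ L') (hL : TrivialOn M L) (hL' : TrivialOn M L') :
    groupCohomology (atLevel M L hL) n →ₗ[k] groupCohomology (atLevel M L' hL') n :=
  (groupCohomology.map (Level.map h) (inflHom M h hL hL') n).hom

/-- Levels unramified outside `S` on which `M` is defined. -/
def LevelS (S : Finset Nat.Primes) : Type := {L : Level // L.IsS S ∧ TrivialOn M L}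

/-- Levels on which `M` is defined. -/
def LevelA : Type := {L : Level // TrivialOn M L}

instance (S : Finset Nat.Primes) : Preorder (LevelS M S) := Preorder.lift (fun L => L.1)
instance : Preorder (LevelA M) := Preorder.lift (fun L => L.1)

/-- Forget the ramification condition. -/
def LevelS.toA {S : Finset Nat.Primes} (L : LevelS M S) : LevelA M := ⟨L.1, L.2.2⟩

/-- The global system of cohomology groups. -/
abbrev globSys (S : Finset Nat.Primes) (n : ℕ) (L : LevelS M S) : Type :=
  groupCohomology (atLevel M L.1 L.2.2) n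

/-- Transition maps of the global system. -/
abbrev globSysMap (S : Finset Nat.Primes) (n : ℕ) (L L' : LevelS M S) (h : L ≤ L') :
    globSys M S n L →ₗ[k] globSys M S n L' :=
  infl M n h L.2.2 L'.2.2

open Classical in
/-- `H^n(G_S, M)`: the direct limit over the levels unramified outside `S`. -/
def HS (S : Finset Nat.Primes) (n : ℕ) : Type :=
  Module.DirectLimit (globSys M S n) (globSysMap M S n)

open Classical in
instance (S : Finset Nat.Primes) (n : ℕ) : AddCommGroup (HS M S n) := by
  unfold HS; infer_instance

open Classical in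
instance (S : Finset Nat.Primes) (n : ℕ) : Module k (HS M S n) := by
  unfold HS; infer_instance

open Classical in
/-- The canonical map of a level into `HS`. -/
def HS.of (S : Finset Nat.Primes) (n : ℕ) (L : LevelS M S) : globSys M S n L →ₗ[k] HS M S n :=
  Module.DirectLimit.of k (LevelS M S) (globSys M S n) (globSysMap M S n) L

open Classical in
lemma HS.of_f (S : Finset Nat.Primes) (n : ℕ) {L L' : LevelS M S} (h : L ≤ L')
    (x : globSys M S n L) :
    HS.of M S n L' (globSysMap M S n L L' h x) = HS.of M S n L x :=
  Module.DirectLimit.of_f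

lemma infl_refl (n : ℕ) (L : Level) (hL : TrivialOn M L) :
    infl M n (le_refl L) hL hL = LinearMap.id := by
  have h := groupCohomology.map_id (B := atLevel M L hL) (n := n)
  have h2 : groupCohomology.map (Level.map (le_refl L)) (inflHom M (le_refl L) hL hL) n
      = groupCohomology.map (MonoidHom.id L.G) (𝟙 (atLevel M L hL)) n :=
    groupCohomology.map_congr (Level.map_refl L) rfl n
  unfold infl
  rw [h2, h]
  rfl

lemma infl_comp (n : ℕ) {L L' L'' : Level} (h : L ≤ L') (h' : L' ≤ L'') (hL : TrivialOn M L)
    (hL' : TrivialOn M L') (hL'' : TrivialOn M L'') :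
    (infl M n h' hL' hL'').comp (infl M n h hL hL') = infl M n (h.trans h') hL hL'' := by
  have h1 := groupCohomology.map_comp (Level.map h) (Level.map h') (inflHom M h hL hL')
    (inflHom M h' hL' hL'') n
  have h2 : groupCohomology.map ((Level.map h).comp (Level.map h'))
      ((Rep.resFunctor (Level.map h')).map (inflHom M h hL hL') ≫ inflHom M h' hL' hL'') n
      = groupCohomology.map (Level.map (h.trans h')) (inflHom M (h.trans h') hL hL'') n :=
    groupCohomology.map_congr (Level.map_comp h h') rfl n
  unfold infl
  rw [← h2, h1]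
  rfl

/-! ## Decomposition groups and local towers -/

/-- The decomposition group at `q` inside `Gal(F / ℚ)`: the image of the Prelude local Galois group. -/
def decomp (q : Nat.Primes) (L : Level) : Subgroup L.G := (primeLocalToGlobal q).range.map L.proj

lemma map_mem_decomp (q : Nat.Primes) {L L' : Level} (h : L ≤ L') {x : L'.G} (hx : x ∈ decomp q L') :
    Level.map h x ∈ decomp q L := by
  obtain ⟨g, hg, rfl⟩ := hx
  exact ⟨g, hg, rfl⟩

/-- `D_q(F') → D_q(F)` for `F ≤ F'`. -/
def decompMap (q : Nat.Primes) {L L' : Level} (h : L ≤ L') : decomp q L' →* decomp q L :=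
  ((Level.map h).comp (decomp q L').subtype).codRestrict (decomp q L)
    (fun x => map_mem_decomp q h x.2)

/-- `M` as a representation of the decomposition group at level `L`. -/
def atDecomp (q : Nat.Primes) (L : Level) (hL : TrivialOn M L) : Rep k (decomp q L) :=
  Rep.res (decomp q L).subtype (atLevel M L hL)

/-- The identity of `M`, as a morphism for the local inflation. -/
def inflLocHom (q : Nat.Primes) {L L' : Level} (h : L ≤ L') (hL : TrivialOn M L)
    (hL' : TrivialOn M L') :
    Rep.res (decompMap q h) (atDecomp M q L hL) ⟶ atDecomp M q L' hL' :=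
  Rep.ofHom ⟨LinearMap.id, fun g => by
    obtain ⟨g, hg⟩ := g
    obtain ⟨g, rfl⟩ := L'.proj_surjective g
    rfl⟩

/-- Local inflation `H^n(D_q(F), M) → H^n(D_q(F'), M)`. -/
def inflLoc (q : Nat.Primes) (n : ℕ) {L L' : Level} (h : L ≤ L') (hL : TrivialOn M L)
    (hL' : TrivialOn M L') :
    groupCohomology (atDecomp M q L hL) n →ₗ[k] groupCohomology (atDecomp M q L' hL') n :=
  (groupCohomology.map (decompMap q h) (inflLocHom M q h hL hL') n).hom

/-- Restriction `H^n(Gal(F/ℚ), M) → H^n(D_q(F), M)`. -/
def resDecomp (q : Nat.Primes) (n : ℕ) (L : Level) (hL : TrivialOn M L) :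
    groupCohomology (atLevel M L hL) n →ₗ[k] groupCohomology (atDecomp M q L hL) n :=
  (groupCohomology.map (decomp q L).subtype (𝟙 (atDecomp M q L hL)) n).hom

lemma inflLoc_resDecomp (q : Nat.Primes) (n : ℕ) {L L' : Level} (h : L ≤ L') (hL : TrivialOn M L)
    (hL' : TrivialOn M L') :
    (inflLoc M q n h hL hL').comp (resDecomp M q n L hL)
      = (resDecomp M q n L' hL').comp (infl M n h hL hL') := by
  have h1 := groupCohomology.map_comp (decomp q L).subtype (decompMap q h)
    (𝟙 (atDecomp M q L hL)) (inflLocHom M q h hL hL') n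
  have h2 := groupCohomology.map_comp (Level.map h) (decomp q L').subtype
    (inflHom M h hL hL') (𝟙 (atDecomp M q L' hL')) n
  unfold inflLoc resDecomp infl
  rw [← ModuleCat.hom_comp, ← ModuleCat.hom_comp, ← h1, ← h2]
  exact congrArg ModuleCat.Hom.hom (groupCohomology.map_congr rfl rfl n)

/-- The local system of cohomology groups. -/
abbrev locSys (q : Nat.Primes) (n : ℕ) (L : LevelA M) : Type :=
  groupCohomology (atDecomp M q L.1 L.2) n

/-- Transition maps of the local system. -/
abbrev locSysMap (q : Nat.Primes) (n : ℕ) (L L' : LevelA M) (h : L ≤ L') :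
    locSys M q n L →ₗ[k] locSys M q n L' :=
  inflLoc M q n h L.2 L'.2

open Classical in
/-- `H^n(ℚ_q, M)`: the direct limit over ALL levels of the cohomology of the decomposition groups. -/
def Hloc (q : Nat.Primes) (n : ℕ) : Type :=
  Module.DirectLimit (locSys M q n) (locSysMap M q n)

open Classical in
instance (q : Nat.Primes) (n : ℕ) : AddCommGroup (Hloc M q n) := by
  unfold Hloc; infer_instance

open Classical in
instance (q : Nat.Primes) (n : ℕ) : Module k (Hloc M q n) := by
  unfold Hloc; infer_instance

open Classical in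
/-- The canonical map of a level into `Hloc`. -/
def Hloc.of (q : Nat.Primes) (n : ℕ) (L : LevelA M) : locSys M q n L →ₗ[k] Hloc M q n :=
  Module.DirectLimit.of k (LevelA M) (locSys M q n) (locSysMap M q n) L

open Classical in
lemma Hloc.of_f (q : Nat.Primes) (n : ℕ) {L L' : LevelA M} (h : L ≤ L') (x : locSys M q n L) :
    Hloc.of M q n L' (locSysMap M q n L L' h x) = Hloc.of M q n L x :=
  Module.DirectLimit.of_f

open Classical in
/-- The localisation map `H^n(G_S, M) → H^n(ℚ_q, M)`. -/
def locMap (S : Finset Nat.Primes) (q : Nat.Primes) (n : ℕ) : HS M S n →ₗ[k] Hloc M q n :=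
  Module.DirectLimit.lift k (LevelS M S) _ _
    (fun L => (Hloc.of M q n L.toA).comp (resDecomp M q n L.1 L.2.2))
    (fun L L' h x => by
      have h1 := LinearMap.congr_fun (inflLoc_resDecomp M q n h L.2.2 L'.2.2) x
      rw [LinearMap.comp_apply, LinearMap.comp_apply] at h1
      change Hloc.of M q n L'.toA (resDecomp M q n L'.1 L'.2.2 (infl M n h L.2.2 L'.2.2 x))
        = Hloc.of M q n L.toA (resDecomp M q n L.1 L.2.2 x)
      rw [← h1]
      exact Hloc.of_f M q n (L := L.toA) (L' := L'.toA) h _)

/-- The total localisation map at the primes of `S`. -/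
def locTotalInt (S : Finset Nat.Primes) (n : ℕ) : HS M S n →ₗ[k] (∀ q : ↥S, Hloc M q.1 n) :=
  LinearMap.pi fun q => locMap M S q.1 n

/-- Internal `Ш^n_S(M)`: classes of `H^n(G_S, M)` that are locally trivial at all primes of `S`
(the archimedean place is invisible for odd `p`). -/
def ShaInt (S : Finset Nat.Primes) (n : ℕ) : Submodule k (HS M S n) :=
  LinearMap.ker (locTotalInt M S n)

end

end Fermat.Agent.CFT
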